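import Mathlib

/-!
# Pfaffians

The Pfaffian of a matrix indexed by `Fin m × Fin 2` as a signed sum over the permutations which
list a perfect matching in increasing order, its behaviour under congruence, and `det = Pf ^ 2`.
-/

set_option autoImplicit false

noncomputable section

namespace FA.Pfaff

open Finset Matrix Equiv
open scoped Classical

variable {R S : Type*} [CommRing R] [CommRing S] {m : ℕ}

/-- Indices: the `m` pairs. -/
abbrev PIdx (m : ℕ) := Fin m × Fin 2

/-- Position of an index. -/
def pkey (x : PIdx m) : ℕ := 2 * x.1.val + x.2.val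

lemma pkey_injective : Function.Injective (pkey (m := m)) := by
  rintro ⟨k, a⟩ ⟨l, b⟩ h
  simp only [pkey] at h
  have := a.isLt
  have := b.isLt
  exact Prod.ext (Fin.ext (by dsimp only; omega)) (Fin.ext (by dsimp only; omega))

/-- The product attached to a permutation. -/
def term (A : Matrix (PIdx m) (PIdx m) R) (σ : Perm (PIdx m)) : R :=
  ((Perm.sign σ : ℤ) : R) * ∏ k, A (σ (k, 0)) (σ (k, 1))

/-- Permutations listing a matching in increasing order. -/
def IsCanon (c : Perm (PIdx m)) : Prop :=
  (∀ k, pkey (c (k, 0)) < pkey (c (k, 1))) ∧ StrictMono fun k => pkey (c (k, 0))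

/-- The Pfaffian. -/
def pf (A : Matrix (PIdx m) (PIdx m) R) : R :=
  ∑ c ∈ (univ : Finset (Perm (PIdx m))).filter IsCanon, term A c

/-- The sum over all permutations. -/
def fullSum (A : Matrix (PIdx m) (PIdx m) R) : R := ∑ σ, term A σ

lemma term_map (φ : R →+* S) (A : Matrix (PIdx m) (PIdx m) R) (σ : Perm (PIdx m)) :
    term (A.map φ) σ = φ (term A σ) := by
  simp [term, map_prod]

lemma pf_map (φ : R →+* S) (A : Matrix (PIdx m) (PIdx m) R) : pf (A.map φ) = φ (pf A) := by
  simp [pf, term_map, map_sum]

/-- Alternating matrices. -/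
def IsAltMat {ι : Type*} (A : Matrix ι ι R) : Prop := Aᵀ = -A ∧ ∀ i, A i i = 0

lemma IsAltMat.swap_entry {ι : Type*} {A : Matrix ι ι R} (hA : IsAltMat A) (i j : ι) :
    A j i = -A i j := congrFun (congrFun hA.1 i) j

/-- The full sum transforms by the determinant under congruence. -/
theorem fullSum_congr (A B : Matrix (PIdx m) (PIdx m) R) :
    fullSum (Bᵀ * A * B) = B.det * fullSum A := by
  have entry : ∀ x y, (Bᵀ * A * B) x y =
      ∑ p : PIdx m × PIdx m, A p.1 p.2 * (B p.1 x * B p.2 y) := by
    intro x y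
    refine Eq.trans ?_ (Fintype.sum_prod_type _).symm
    simp only [mul_apply, transpose_apply, sum_mul]
    rw [sum_comm]
    exact sum_congr rfl fun i _ => sum_congr rfl fun j _ => by ring
  let F : (Fin m → PIdx m × PIdx m) ≃ (PIdx m → PIdx m) :=
    { toFun := fun g x => if x.2 = 0 then (g x.1).1 else (g x.1).2
      invFun := fun f k => (f (k, 0), f (k, 1))
      left_inv := fun g => funext fun k => by simp
      right_inv := fun f => funext fun x => by
        obtain ⟨k, a⟩ := x
        fin_cases a <;> simp }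
  have step : fullSum (Bᵀ * A * B) =
      ∑ f : PIdx m → PIdx m, (∏ k, A (f (k, 0)) (f (k, 1))) * (B.submatrix f id).det := by
    calc fullSum (Bᵀ * A * B)
        = ∑ σ : Perm (PIdx m), ∑ g : Fin m → PIdx m × PIdx m, ((Perm.sign σ : ℤ) : R) *
            ((∏ k, A (g k).1 (g k).2) * ∏ k, B (g k).1 (σ (k, 0)) * B (g k).2 (σ (k, 1))) := by
          refine sum_congr rfl fun σ _ => ?_
          simp only [term, entry, Fintype.prod_sum, mul_sum, prod_mul_distrib]
      _ = ∑ g : Fin m → PIdx m × PIdx m, ∑ σ : Perm (PIdx m), ((Perm.sign σ : ℤ) : R) *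
            ((∏ k, A (g k).1 (g k).2) * ∏ k, B (g k).1 (σ (k, 0)) * B (g k).2 (σ (k, 1))) :=
          sum_comm
      _ = _ := by
          refine Fintype.sum_equiv F _ _ fun g => ?_
          rw [← det_transpose, det_apply', mul_sum]
          refine sum_congr rfl fun σ _ => ?_
          rw [Fintype.prod_prod_type]
          simp only [transpose_apply, submatrix_apply, id_eq, Fin.prod_univ_two, F, Equiv.coe_fn_mk]
          simp
          ring
  rw [step, fullSum, mul_sum]
  symm
  refine Fintype.sum_of_injective (fun τ : Perm (PIdx m) => (⇑τ : PIdx m → PIdx m))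
    DFunLike.coe_injective _ _ (fun f hf => ?_) (fun τ => ?_)
  · have hni : ¬ Function.Injective f := fun hi =>
      hf ⟨Equiv.ofBijective f (Finite.injective_iff_bijective.1 hi), rfl⟩
    obtain ⟨x, y, hxy, hne⟩ := Function.not_injective_iff.1 hni
    rw [det_zero_of_row_eq hne (funext fun j => by simp [hxy]), mul_zero]
  · rw [det_permute, term]
    ring

lemma sign_shear (π : Perm (Fin m)) (ε : Fin m → Perm (Fin 2)) :
    Perm.sign (prodShear π ε : Perm (PIdx m)) = ∏ k, Perm.sign (ε k) := by
  have h : (prodShear π ε : Perm (PIdx m)) =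
      (prodCongrLeft fun _ : Fin 2 => π) * prodCongrRight ε := by
    ext x <;> simp
  rw [h, map_mul, Perm.sign_prodCongrLeft, Perm.sign_prodCongrRight, Fin.prod_univ_two,
    Int.units_mul_self, one_mul]

lemma perm_two (e : Perm (Fin 2)) : e = 1 ∨ e = swap 0 1 := by
  revert e
  decide

/-- Reordering the pairs or flipping a pair preserves the term. -/
lemma term_mul_shear {A : Matrix (PIdx m) (PIdx m) R} (hA : IsAltMat A) (c : Perm (PIdx m))
    (π : Perm (Fin m)) (ε : Fin m → Perm (Fin 2)) :
    term A (c * prodShear π ε) = term A c := by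
  have hk : ∀ k, A ((c * prodShear π ε) (k, 0)) ((c * prodShear π ε) (k, 1)) =
      ((Perm.sign (ε k) : ℤ) : R) * A (c (π k, 0)) (c (π k, 1)) := by
    intro k
    rcases perm_two (ε k) with h | h
    · simp [h]
    · simp [h, hA.swap_entry (c (π k, 0)) (c (π k, 1))]
  simp only [term, map_mul, sign_shear, hk, prod_mul_distrib,
    Equiv.prod_comp π fun k => A (c (k, 0)) (c (k, 1))]
  push_cast
  rw [← mul_assoc, mul_assoc (((Perm.sign c : ℤ) : R))]
  congr 1
  rw [← prod_mul_distrib, Finset.prod_eq_one, mul_one]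
  intro k _
  rcases Int.units_eq_one_or (Perm.sign (ε k)) with h | h <;> simp [h]

/-- Each permutation is uniquely a canonical one reordered. -/
lemma shear_bijective :
    Function.Bijective fun q : {c : Perm (PIdx m) // IsCanon c} ×
        (Perm (Fin m) × (Fin m → Perm (Fin 2))) =>
      (q.1.1 * prodShear q.2.1 q.2.2 : Perm (PIdx m)) := by
  constructor
  · rintro ⟨⟨c, hc⟩, π, ε⟩ ⟨⟨c', hc'⟩, π', ε'⟩ h
    simp only at h
    -- the composite reordering
    have key : ∀ k a, c' (π' k, a) = c (π k, (ε k) ((ε' k).symm a)) := by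
      intro k a
      have := Equiv.congr_fun h (k, (ε' k).symm a)
      simpa using this.symm
    have hε : ∀ k, ε k = ε' k := by
      intro k
      have h0 : ∀ a, (ε k) ((ε' k).symm a) = a := by
        rcases perm_two ((ε k) * (ε' k)⁻¹) with he | he
        · intro a; exact Equiv.congr_fun he a
        · exfalso
          have e0 : (ε k) ((ε' k).symm 0) = 1 := by simpa using Equiv.congr_fun he 0
          have e1 : (ε k) ((ε' k).symm 1) = 0 := by simpa using Equiv.congr_fun he 1
          have := hc'.1 (π' k)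
          rw [key k 0, key k 1, e0, e1] at this
          exact absurd (hc.1 (π k)) (by omega)
      ext1 a
      have := h0 ((ε' k) a)
      simpa using this
    have hπ : π = π' := by
      have hcomp : ∀ k, pkey (c' (π' k, 0)) = pkey (c (π k, 0)) := by
        intro k
        rw [key k 0, hε k]
        simp
      have hmono : StrictMono (π * π'⁻¹ : Perm (Fin m)) := by
        intro a b hab
        have := hc'.2 hab
        simp only at this
        rw [show a = π' (π'⁻¹ a) by simp, show b = π' (π'⁻¹ b) by simp, hcomp, hcomp] at this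
        exact hc.2.lt_iff_lt.1 this
      have hid : π * π'⁻¹ = 1 := by
        ext1 a
        exact le_antisymm (hmono.le_id a) (hmono.id_le a)
      exact mul_inv_eq_one.1 hid
    subst hπ
    obtain rfl : ε = ε' := funext hε
    simpa using h
  · intro σ
    let ε : Fin m → Perm (Fin 2) := fun k =>
      if pkey (σ (k, 0)) < pkey (σ (k, 1)) then 1 else swap 0 1
    have hlt : ∀ k, pkey (σ (k, ε k 0)) < pkey (σ (k, ε k 1)) := by
      intro k
      by_cases h : pkey (σ (k, 0)) < pkey (σ (k, 1))
      · simp [ε, h]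
      · have : pkey (σ (k, 0)) ≠ pkey (σ (k, 1)) := fun e => by
          simpa using pkey_injective e
        simp [ε, h]
        omega
    let f : Fin m → ℕ := fun k => pkey (σ (k, ε k 0))
    have hf : Function.Injective f := fun a b e => by
      have := σ.injective (pkey_injective e)
      exact (Prod.ext_iff.1 this).1
    let π := Tuple.sort f
    refine ⟨⟨⟨σ * prodShear π (fun k => ε (π k)), ?_, ?_⟩, π⁻¹, fun k => (ε k)⁻¹⟩, ?_⟩
    · intro k
      simpa using hlt (π k)
    · have h1 : Monotone (f ∘ π) := Tuple.monotone_sort f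
      exact h1.strictMono_of_injective (hf.comp π.injective)
    · ext1 x
      simp

lemma fullSum_eq {A : Matrix (PIdx m) (PIdx m) R} (hA : IsAltMat A) :
    fullSum A = ((2 ^ m * m.factorial : ℕ) : R) * pf A := by
  rw [fullSum, ← (shear_bijective (m := m)).sum_comp (term A), Fintype.sum_prod_type]
  simp only [term_mul_shear hA, sum_const, card_univ, Fintype.card_prod, Fintype.card_perm,
    Fintype.card_fin, Fintype.card_fun, nsmul_eq_mul]
  rw [pf, ← Finset.mul_sum,
    sum_subtype ((univ : Finset (Perm (PIdx m))).filter IsCanon) (p := IsCanon)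
      (fun x => by rw [mem_filter]; exact and_iff_right (mem_univ x)) (term A)]
  congr 2
  simp [mul_comm]

/-- The standard symplectic matrix. -/
def jmat (m : ℕ) (R : Type*) [CommRing R] : Matrix (PIdx m) (PIdx m) R :=
  fun x y => if x.1 = y.1 then (!![0, 1; -1, 0] : Matrix (Fin 2) (Fin 2) R) x.2 y.2 else 0

lemma jmat_alt : IsAltMat (jmat m R) := by
  refine ⟨?_, fun x => ?_⟩
  · ext ⟨k, a⟩ ⟨l, b⟩
    rw [transpose_apply, Matrix.neg_apply]
    by_cases h : k = l
    · subst h
      fin_cases a <;> fin_cases b <;> simp [jmat]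
    · simp [jmat, h, Ne.symm h]
  · obtain ⟨k, a⟩ := x
    fin_cases a <;> simp [jmat]

lemma det_jmat : (jmat m R).det = 1 := by
  have h : jmat m R = (blockDiagonal fun _ : Fin m => (!![0, 1; -1, 0] : Matrix (Fin 2) (Fin 2) R)).submatrix
      (Equiv.prodComm (Fin m) (Fin 2)) (Equiv.prodComm (Fin m) (Fin 2)) := by
    ext ⟨k, a⟩ ⟨l, b⟩
    simp [jmat, blockDiagonal_apply]
  rw [h, det_submatrix_equiv_self, det_blockDiagonal]
  simp [det_fin_two]

lemma pf_jmat : pf (jmat m R) = 1 := by
  rcases subsingleton_or_nontrivial R with hR | hR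
  · exact Subsingleton.elim _ _
  rw [pf, sum_eq_single_of_mem 1]
  · simp [term, jmat]
  · simp only [mem_filter, mem_univ, true_and, IsCanon, Perm.one_apply, pkey]
    refine ⟨fun k => by simp, fun a b h => ?_⟩
    simpa using h
  · intro c hc hne
    simp only [mem_filter, mem_univ, true_and] at hc
    by_contra h0
    apply hne
    have hne0 : ∀ k, jmat m R (c (k, 0)) (c (k, 1)) ≠ 0 := fun k hk => by
      apply h0
      rw [term, prod_eq_zero (mem_univ k) hk, mul_zero]
    have hform : ∀ k, c (k, 0) = ((c (k, 0)).1, 0) ∧ c (k, 1) = ((c (k, 0)).1, 1) := by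
      intro k
      have h1 := hne0 k
      have h2 := hc.1 k
      rcases hx : c (k, 0) with ⟨i, a⟩
      rcases hy : c (k, 1) with ⟨j, b⟩
      rw [hx, hy] at h1 h2
      have hij : i = j := by
        by_contra hij
        exact h1 (by simp [jmat, hij])
      subst hij
      simp only [pkey] at h2
      fin_cases a <;> fin_cases b <;> simp at h2 ⊢
    have hg : StrictMono fun k => (c (k, 0)).1 := by
      intro a b hab
      have := hc.2 hab
      have e : ∀ k, pkey (c (k, 0)) = 2 * (c (k, 0)).1.val := fun k => by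
        have := congrArg (fun x : PIdx m => x.2.val) (hform k).1
        simp only [Fin.val_zero] at this
        simp [pkey, this]
      simp only [e] at this
      simp only [Fin.lt_def]
      omega
    have hgid : ∀ k, (c (k, 0)).1 = k := fun k => le_antisymm (hg.le_id k) (hg.id_le k)
    ext1 ⟨k, a⟩
    fin_cases a
    · simpa [hgid k] using (hform k).1
    · simpa [hgid k] using (hform k).2

section Field

variable {K V : Type*} [Field K] [AddCommGroup V] [Module K V] [FiniteDimensional K V]

/-- A nondegenerate alternating form has a standard family of half the size. -/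
lemma exists_family (β : V →ₗ[K] V →ₗ[K] K) (hs : ∀ x, β x x = 0) :
    ∀ (k : ℕ) (W : Submodule K V), Module.finrank K W = k →
      (∀ y ∈ W, (∀ x ∈ W, β y x = 0) → y = 0) →
      ∃ m, k = 2 * m ∧ ∃ f : PIdx m → V, (∀ x, f x ∈ W) ∧
        ∀ x y, β (f x) (f y) = jmat m K x y := by
  intro k
  induction k using Nat.strong_induction_on with
  | _ k ih =>
    intro W hW hnd
    by_cases hk : k = 0
    · exact ⟨0, by omega, fun x => x.1.elim0, fun x => x.1.elim0, fun x => x.1.elim0⟩
    have hsk : ∀ x y, β y x = -β x y := by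
      intro x y
      have := hs (x + y)
      simp only [map_add, LinearMap.add_apply, hs, zero_add, add_zero] at this
      linear_combination this
    have hWne : W ≠ ⊥ := fun h => hk (by rw [← hW, h, finrank_bot])
    obtain ⟨v, hvW, hv⟩ := Submodule.exists_mem_ne_zero_of_ne_bot hWne
    obtain ⟨w₀, hw₀W, hw₀⟩ : ∃ w₀ ∈ W, β v w₀ ≠ 0 := by
      by_contra h
      push Not at h
      exact hv (hnd v hvW h)
    set w := (β v w₀)⁻¹ • w₀ with hwdef
    have hwW : w ∈ W := W.smul_mem _ hw₀W
    have hvw : β v w = 1 := by simp [w, hw₀]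
    have hwv : β w v = -1 := by rw [hsk v w, hvw]
    let L : W →ₗ[K] K × K := ((β v).comp W.subtype).prod ((β w).comp W.subtype)
    have hL : LinearMap.range L = ⊤ := by
      rw [LinearMap.range_eq_top]
      intro p
      refine ⟨⟨p.1 • w - p.2 • v, W.sub_mem (W.smul_mem _ hwW) (W.smul_mem _ hvW)⟩, ?_⟩
      simp [L, hvw, hwv, hs]
    have hdim := L.finrank_range_add_finrank_ker
    rw [hL, finrank_top, Module.finrank_prod, Module.finrank_self, hW] at hdim
    let W' : Submodule K V := Submodule.map W.subtype (LinearMap.ker L)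
    have hW' : Module.finrank K W' = Module.finrank K (LinearMap.ker L) :=
      Submodule.finrank_map_subtype_eq _ _
    have memW' : ∀ x, x ∈ W' ↔ x ∈ W ∧ β v x = 0 ∧ β w x = 0 := by
      intro x
      constructor
      · rintro ⟨⟨y, hy⟩, hy', rfl⟩
        simpa [L, hy] using hy'
      · rintro ⟨h1, h2, h3⟩
        exact ⟨⟨x, h1⟩, by simp [L, h2, h3], rfl⟩
    obtain ⟨m, hm, f, hfW, hf⟩ := ih (k - 2) (by omega) W' (by omega) (by
      intro y hy hyx
      obtain ⟨hyW, hyv, hyw⟩ := (memW' y).1 hy
      refine hnd y hyW fun x hx => ?_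
      have := hyx (x - β v x • w + β w x • v) ((memW' _).2
        ⟨W.add_mem (W.sub_mem hx (W.smul_mem _ hwW)) (W.smul_mem _ hvW),
          by simp [hvw, hs], by simp [hwv, hs]⟩)
      have e1 : β y w = 0 := by rw [hsk w y, hyw, neg_zero]
      have e2 : β y v = 0 := by rw [hsk v y, hyv, neg_zero]
      simpa [e1, e2] using this)
    refine ⟨m + 1, by omega,
      fun x => Fin.cases (if x.2 = 0 then v else w) (fun i => f (i, x.2)) x.1, ?_, ?_⟩
    · rintro ⟨i, a⟩
      induction i using Fin.cases with
      | zero => simp only [Fin.cases_zero]; split <;> assumption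
      | succ i => simpa using ((memW' _).1 (hfW (i, a))).1
    · rintro ⟨i, a⟩ ⟨j, b⟩
      induction i using Fin.cases with
      | zero =>
        induction j using Fin.cases with
        | zero => fin_cases a <;> fin_cases b <;> simp [jmat, hvw, hwv, hs]
        | succ j =>
          obtain ⟨-, h1, h2⟩ := (memW' _).1 (hfW (j, b))
          clear hsk
          fin_cases a <;> simp [jmat, h1, h2, (Fin.succ_ne_zero j).symm]
      | succ i =>
        obtain ⟨-, h1, h2⟩ := (memW' _).1 (hfW (i, a))
        induction j using Fin.cases with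
        | zero =>
          have e1 : β (f (i, a)) w = 0 := by rw [hsk w, h2, neg_zero]
          have e2 : β (f (i, a)) v = 0 := by rw [hsk v, h1, neg_zero]
          fin_cases b <;> simp [jmat, e1, e2, Fin.succ_ne_zero i]
        | succ j => simpa [jmat, Fin.succ_inj] using hf (i, a) (j, b)

theorem det_eq_sq_field [CharZero K] {A : Matrix (PIdx m) (PIdx m) K} (hA : IsAltMat A)
    (hd : A.det ≠ 0) : A.det = pf A ^ 2 := by
  let β := Matrix.toBilin' A
  have happ : ∀ x y, β x y = x ⬝ᵥ (A *ᵥ y) := fun x y => Matrix.toBilin'_apply' A x y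
  have hs : ∀ x, β x x = 0 := by
    intro x
    have h2 : x ⬝ᵥ (A *ᵥ x) = -(x ⬝ᵥ (A *ᵥ x)) := by
      conv_lhs => rw [dotProduct_mulVec, ← mulVec_transpose, hA.1, neg_mulVec, neg_dotProduct,
        dotProduct_comm]
    rw [happ]
    exact CharZero.eq_neg_self_iff.1 h2
  obtain ⟨m', hm', f, -, hf⟩ := exists_family β hs (2 * m) ⊤ (by
      rw [finrank_top, Module.finrank_fintype_fun_eq_card]; simp [mul_comm]) (by
      intro y _ hy
      apply Matrix.eq_zero_of_vecMul_eq_zero hd
      funext i
      have := hy (Pi.single i 1) trivial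
      rw [happ, dotProduct_mulVec] at this
      simpa using this)
  obtain rfl : m' = m := by omega
  let P : Matrix (PIdx m') (PIdx m') K := fun i x => f x i
  have hP : Pᵀ * A * P = jmat m' K := by
    ext x y
    rw [← hf x y, happ, Matrix.mul_assoc]
    simp only [mul_apply, transpose_apply, dotProduct, mulVec, P]
  have h1 : P.det ^ 2 * A.det = 1 := by
    have := congrArg det hP
    rw [det_mul, det_mul, det_transpose, det_jmat] at this
    linear_combination this
  have h2 : P.det * pf A = 1 := by
    have := fullSum_congr A P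
    rw [hP, fullSum_eq jmat_alt, fullSum_eq hA, pf_jmat] at this
    have hc : ((2 ^ m' * m'.factorial : ℕ) : K) ≠ 0 := Nat.cast_ne_zero.2 (by positivity)
    refine mul_left_cancel₀ hc ?_
    linear_combination -this
  have hP0 : P.det ≠ 0 := left_ne_zero_of_mul (h2.symm ▸ one_ne_zero)
  refine mul_left_cancel₀ (pow_ne_zero 2 hP0) ?_
  linear_combination h1 - (P.det * pf A + 1) * h2

end Field

section Generic

variable {ι : Type*} (key : ι → ℕ)

/-- Pairs in increasing order. -/
abbrev UpPair := {p : ι × ι // key p.1 < key p.2}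

/-- The alternating matrix with given entries above the diagonal. -/
def mkAlt (x : UpPair key → R) : Matrix ι ι R := fun i j =>
  if h : key i < key j then x ⟨(i, j), h⟩ else if h' : key j < key i then -x ⟨(j, i), h'⟩ else 0

lemma mkAlt_alt (x : UpPair key → R) : IsAltMat (mkAlt key x) := by
  refine ⟨?_, fun i => by simp [mkAlt]⟩
  ext i j
  rw [transpose_apply, Matrix.neg_apply]
  rcases lt_trichotomy (key i) (key j) with h | h | h <;> simp [mkAlt, h, h.le.not_gt]

lemma mkAlt_map (φ : R →+* S) (x : UpPair key → R) :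
    (mkAlt key x).map φ = mkAlt key (φ ∘ x) := by
  ext i j
  simp only [map_apply, mkAlt, Function.comp_apply]
  split_ifs <;> simp

lemma mkAlt_eq {A : Matrix ι ι R} (hA : IsAltMat A) (hk : Function.Injective key) :
    A = mkAlt key fun p => A p.1.1 p.1.2 := by
  ext i j
  rcases lt_trichotomy (key i) (key j) with h | h | h
  · simp [mkAlt, h]
  · obtain rfl := hk h
    simp [mkAlt, hA.2]
  · simp [mkAlt, h, h.le.not_gt, hA.swap_entry j i]

/-- Alternating matrices of odd size are singular. -/
theorem det_eq_zero_of_odd [Fintype ι] [DecidableEq ι] {A : Matrix ι ι R} (hA : IsAltMat A)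
    (ho : Odd (Fintype.card ι)) : A.det = 0 := by
  obtain ⟨e⟩ : Nonempty (ι ≃ Fin (Fintype.card ι)) := ⟨Fintype.equivFin ι⟩
  let k : ι → ℕ := fun i => e i
  have hk : Function.Injective k := fun a b h => e.injective (Fin.ext h)
  let X : Matrix ι ι (MvPolynomial (UpPair k) ℤ) := mkAlt k MvPolynomial.X
  have hX : X.det = 0 := by
    have h := det_neg X
    rw [← (mkAlt_alt k MvPolynomial.X).1, det_transpose, ho.neg_one_pow, neg_one_mul] at h
    exact CharZero.eq_neg_self_iff.1 h
  rw [mkAlt_eq k hA hk]
  have hmap : mkAlt k (fun p => A p.1.1 p.1.2) =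
      X.map (MvPolynomial.aeval fun p : UpPair k => A p.1.1 p.1.2).toRingHom := by
    rw [mkAlt_map]
    congr 1
    funext p
    simp
  rw [hmap, ← RingHom.mapMatrix_apply, ← RingHom.map_det, hX, map_zero]

end Generic

/-- **Cayley**: `det A = Pf(A) ^ 2`. -/
theorem det_eq_pf_sq {A : Matrix (PIdx m) (PIdx m) R} (hA : IsAltMat A) : A.det = pf A ^ 2 := by
  let X : Matrix (PIdx m) (PIdx m) (MvPolynomial (UpPair (pkey (m := m))) ℤ) :=
    mkAlt pkey MvPolynomial.X
  have hXdet : X.det ≠ 0 := by
    intro h
    have := congrArg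
      (MvPolynomial.aeval fun p : UpPair (pkey (m := m)) => jmat m ℤ p.1.1 p.1.2).toRingHom h
    rw [RingHom.map_det, RingHom.mapMatrix_apply, mkAlt_map, map_zero] at this
    have e : mkAlt (pkey (m := m)) ((MvPolynomial.aeval
        fun p : UpPair (pkey (m := m)) => jmat m ℤ p.1.1 p.1.2).toRingHom ∘
          (MvPolynomial.X (R := ℤ))) = jmat m ℤ := by
      refine Eq.trans ?_ (mkAlt_eq pkey (jmat_alt (m := m) (R := ℤ)) pkey_injective).symm
      congr 1
      funext p
      simp
    rw [e, det_jmat] at this
    exact one_ne_zero this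
  have hX : X.det = pf X ^ 2 := by
    let φ := algebraMap (MvPolynomial (UpPair (pkey (m := m))) ℤ)
      (FractionRing (MvPolynomial (UpPair (pkey (m := m))) ℤ))
    have hφ : Function.Injective φ := IsFractionRing.injective _ _
    have : CharZero (FractionRing (MvPolynomial (UpPair (pkey (m := m))) ℤ)) :=
      charZero_of_injective_ringHom hφ
    apply hφ
    rw [RingHom.map_det, RingHom.mapMatrix_apply, map_pow, ← pf_map]
    refine det_eq_sq_field ?_ ?_
    · rw [mkAlt_map]; exact mkAlt_alt _ _
    · rw [← RingHom.mapMatrix_apply, ← RingHom.map_det]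
      exact (map_ne_zero_iff φ hφ).2 hXdet
  have hA' : A = X.map (MvPolynomial.aeval
      fun p : UpPair (pkey (m := m)) => A p.1.1 p.1.2).toRingHom := by
    rw [mkAlt_map]
    conv_lhs => rw [mkAlt_eq pkey hA pkey_injective]
    congr 1
    funext p
    simp
  rw [hA', ← RingHom.mapMatrix_apply, ← RingHom.map_det, RingHom.mapMatrix_apply, pf_map, hX,
    map_pow]

/-- **Congruence law** `Pf(Bᵀ A B) = det(B) Pf(A)`. -/
theorem pf_congr {A : Matrix (PIdx m) (PIdx m) R} (hA : IsAltMat A)
    (B : Matrix (PIdx m) (PIdx m) R) : pf (Bᵀ * A * B) = B.det * pf A := by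
  let Var := UpPair (pkey (m := m)) ⊕ (PIdx m × PIdx m)
  let X : Matrix (PIdx m) (PIdx m) (MvPolynomial Var ℤ) :=
    mkAlt pkey fun p => MvPolynomial.X (Sum.inl p)
  let Y : Matrix (PIdx m) (PIdx m) (MvPolynomial Var ℤ) :=
    fun i j => MvPolynomial.X (Sum.inr (i, j))
  have hXa : IsAltMat X := mkAlt_alt _ _
  have hYa : IsAltMat (Yᵀ * X * Y) := by
    have h : (Yᵀ * X * Y)ᵀ = -(Yᵀ * X * Y) := by
      rw [transpose_mul, transpose_mul, transpose_transpose, hXa.1, Matrix.neg_mul,
        Matrix.mul_neg, Matrix.mul_assoc]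
    exact ⟨h, fun i => CharZero.eq_neg_self_iff.1 (congrFun (congrFun h i) i)⟩
  have hgen : pf (Yᵀ * X * Y) = Y.det * pf X := by
    have h := fullSum_congr X Y
    rw [fullSum_eq hXa, fullSum_eq hYa, ← mul_left_comm] at h
    exact mul_left_cancel₀ (Nat.cast_ne_zero.2 (by positivity)) h
  let ψ : MvPolynomial Var ℤ →+* R := (MvPolynomial.aeval
    (Sum.elim (fun p : UpPair (pkey (m := m)) => A p.1.1 p.1.2) fun q => B q.1 q.2)).toRingHom
  have hX' : X.map ψ = A := by
    rw [mkAlt_map]
    conv_rhs => rw [mkAlt_eq pkey hA pkey_injective]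
    congr 1
    funext p
    simp [ψ]
  have hY' : Y.map ψ = B := by
    ext i j
    simp [ψ, Y]
  have := congrArg ψ hgen
  rw [map_mul, RingHom.map_det, RingHom.mapMatrix_apply, hY', ← pf_map, ← pf_map, hX',
    Matrix.map_mul, Matrix.map_mul, transpose_map, hY', hX'] at this
  exact this

end FA.Pfaff
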