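import Fermat.Agent.Pfaff.Core

/-!
# The matrix of Tutte and the matching theorem of Petersen
-/

set_option autoImplicit false

noncomputable section

namespace FA.Pfaff

open Finset Matrix Equiv
open scoped Classical

variable {V : Type*} [Fintype V]

omit [Fintype V] in
/-- A perfect matching is the same as a fixed-point-free involution along edges. -/
lemma exists_matching_iff_involution (G : SimpleGraph V) :
    (∃ M : G.Subgraph, M.IsPerfectMatching) ↔
      ∃ f : V → V, ∀ v, f (f v) = v ∧ G.Adj v (f v) := by
  constructor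
  · rintro ⟨M, hM⟩
    rw [SimpleGraph.Subgraph.isPerfectMatching_iff] at hM
    choose f hf huniq using hM
    exact ⟨f, fun v => ⟨(huniq (f v) v (hf v).symm).symm, M.adj_sub (hf v)⟩⟩
  · rintro ⟨f, hf⟩
    refine ⟨{ verts := Set.univ, Adj := fun a b => f a = b,
              adj_sub := fun {a b} h => h ▸ (hf a).2,
              edge_vert := fun _ => trivial,
              symm := ⟨fun a b h => h ▸ (hf a).1⟩ }, ?_⟩
    rw [SimpleGraph.Subgraph.isPerfectMatching_iff]
    exact fun v => ⟨f v, rfl, fun y hy => Eq.symm hy⟩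

/-- The matrix of Tutte of a graph. -/
def tutteMat [LinearOrder V] (G : SimpleGraph V) : Matrix V V (MvPolynomial (Sym2 V) ℤ) :=
  fun i j => if G.Adj i j then
    (if i < j then MvPolynomial.X s(i, j) else -MvPolynomial.X s(i, j)) else 0

lemma tutteMat_alt [LinearOrder V] (G : SimpleGraph V) : IsAltMat (tutteMat G) := by
  refine ⟨?_, fun i => by simp [tutteMat]⟩
  ext i j
  rw [transpose_apply, Matrix.neg_apply]
  by_cases h : G.Adj i j
  · rcases lt_or_gt_of_ne h.ne with h' | h' <;>
      simp [tutteMat, h, h.symm, h', h'.le.not_gt, Sym2.eq_swap]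
  · have h' : ¬ G.Adj j i := fun h' => h h'.symm
    simp [tutteMat, h, h']

/-- **Tutte's criterion**: the matrix of Tutte is nonsingular exactly for graphs with a perfect
matching. -/
theorem tutteMat_det_ne_zero_iff [LinearOrder V] (G : SimpleGraph V) :
    (tutteMat G).det ≠ 0 ↔ ∃ M : G.Subgraph, M.IsPerfectMatching := by
  rw [exists_matching_iff_involution]
  constructor
  · intro hd
    have heven : Even (Fintype.card V) := by
      by_contra h
      exact hd (det_eq_zero_of_odd (tutteMat_alt G) (Nat.not_even_iff_odd.1 h))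
    obtain ⟨m, hm⟩ := heven.two_dvd
    obtain ⟨e⟩ : Nonempty (PIdx m ≃ V) :=
      ⟨Fintype.equivOfCardEq (by simp [PIdx, hm, mul_comm])⟩
    have hA : IsAltMat ((tutteMat G).submatrix e e) := by
      refine ⟨?_, fun i => (tutteMat_alt G).2 _⟩
      rw [transpose_submatrix, (tutteMat_alt G).1]
      rfl
    have hpf : pf ((tutteMat G).submatrix e e) ≠ 0 := by
      intro h
      apply hd
      rw [← det_submatrix_equiv_self e, det_eq_pf_sq hA, h]
      ring
    obtain ⟨c, -, hc⟩ := exists_ne_zero_of_sum_ne_zero hpf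
    have hadj : ∀ k, G.Adj (e (c (k, 0))) (e (c (k, 1))) := by
      intro k
      by_contra h
      apply hc
      rw [term, prod_eq_zero (mem_univ k) (by simp [tutteMat, h]), mul_zero]
    let g : PIdx m ≃ V := c.trans e
    refine ⟨fun v => g ((g.symm v).1, Equiv.swap 0 1 (g.symm v).2), fun v => ?_⟩
    obtain ⟨⟨k, a⟩, rfl⟩ := g.surjective v
    simp only [Equiv.symm_apply_apply, Equiv.swap_apply_self]
    refine ⟨trivial, ?_⟩
    fin_cases a
    · simpa [g] using hadj k
    · simpa [g] using (hadj k).symm
  · rintro ⟨f, hf⟩ hd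
    let φ : MvPolynomial (Sym2 V) ℤ →+* ℤ := (MvPolynomial.aeval fun s : Sym2 V =>
      if (∃ v, s = s(v, f v)) then (1 : ℤ) else 0).toRingHom
    have hentry : ∀ i j, φ (tutteMat G i j) =
        if f i = j then (if i < j then 1 else -1) else 0 := by
      intro i j
      have hiff : (∃ v, s(i, j) = s(v, f v)) ↔ f i = j := by
        constructor
        · rintro ⟨v, hv⟩
          rcases Sym2.eq_iff.1 hv with ⟨rfl, rfl⟩ | ⟨rfl, rfl⟩
          · rfl
          · exact (hf j).1
        · rintro rfl
          exact ⟨i, rfl⟩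
      have hX : φ (MvPolynomial.X s(i, j)) = if f i = j then 1 else 0 := by
        refine (MvPolynomial.aeval_X _ _).trans ?_
        exact if_congr hiff rfl rfl
      by_cases h : f i = j
      · subst h
        have := (hf i).2
        by_cases h' : i < f i <;> simp [tutteMat, this, h', hX]
      · by_cases ha : G.Adj i j
        · by_cases h' : i < j <;> simp [tutteMat, ha, h', hX, h]
        · simp [tutteMat, ha, h]
    have h0 : ((tutteMat G).map φ).det = 0 := by
      rw [← RingHom.mapMatrix_apply, ← RingHom.map_det, hd, map_zero]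
    let π : Perm V := ⟨f, f, fun v => (hf v).1, fun v => (hf v).1⟩
    rw [det_apply', sum_eq_single π] at h0
    · rcases mul_eq_zero.1 h0 with h | h
      · simp at h
      · obtain ⟨i, -, hi⟩ := prod_eq_zero_iff.1 h
        rw [map_apply, hentry] at hi
        simp only [π, Equiv.coe_fn_mk, (hf i).1, if_true] at hi
        split_ifs at hi <;> simp at hi
    · intro σ _ hσ
      obtain ⟨i, hi⟩ : ∃ i, σ i ≠ f i := by
        by_contra h
        push Not at h
        exact hσ (Equiv.ext h)
      rw [prod_eq_zero (mem_univ i), mul_zero]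
      rw [map_apply, hentry, if_neg]
      intro h
      exact hi (by rw [← (hf (σ i)).1, h])
    · simp

/-- A finite set with a fixed-point-free involution has even size. -/
lemma even_card_of_involution {α : Type*} (s : Finset α) (g : α → α)
    (h : ∀ a ∈ s, g a ∈ s ∧ g a ≠ a ∧ g (g a) = a) : Even s.card := by
  have : (s.card : ZMod 2) = 0 := by
    rw [card_eq_sum_ones, Nat.cast_sum]
    exact sum_involution (fun a _ => g a)
      (fun a _ => by simp only [Nat.cast_one]; rfl) (fun a ha _ => (h a ha).2.1)
      (fun a ha => (h a ha).1) (fun a ha => (h a ha).2.2)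
  exact ZMod.natCast_eq_zero_iff_even.1 this

/-- The number of edges leaving a vertex set, as ordered pairs. -/
def outPairs (G : SimpleGraph V) (S : Finset V) : Finset (V × V) :=
  univ.filter fun p => p.1 ∈ S ∧ p.2 ∉ S ∧ G.Adj p.1 p.2

/-- In a cubic graph without bridges an odd set is left by at least three edges. -/
lemma three_le_outPairs (G : SimpleGraph V) (hreg : ∀ v, (G.neighborSet v).ncard = 3)
    (hbr : ∀ e ∈ G.edgeSet, ¬ G.IsBridge e) {S : Finset V} (hS : Odd S.card) :
    3 ≤ (outPairs G S).card := by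
  have hdeg : ∀ v, (univ.filter fun w => G.Adj v w).card = 3 := by
    intro v
    rw [← hreg v, Set.ncard_eq_toFinset_card']
    congr 1
    ext w
    simp
  let inP : Finset (V × V) := univ.filter fun p => p.1 ∈ S ∧ p.2 ∈ S ∧ G.Adj p.1 p.2
  have hsum : inP.card + (outPairs G S).card = 3 * S.card := by
    have hdisj : Disjoint inP (outPairs G S) := by
      rw [disjoint_left]
      intro p hp hq
      simp only [inP, outPairs, mem_filter] at hp hq
      exact hq.2.2.1 hp.2.2.1
    rw [← card_union_of_disjoint hdisj]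
    have : inP ∪ outPairs G S = univ.filter fun p : V × V => p.1 ∈ S ∧ G.Adj p.1 p.2 := by
      ext p
      simp only [inP, outPairs, mem_union, mem_filter, mem_univ, true_and]
      tauto
    rw [this, card_eq_sum_card_fiberwise (f := Prod.fst) (t := S)
      (fun p hp => by simp only [coe_filter, Set.mem_ofPred_eq] at hp; exact hp.2.1)]
    rw [show 3 * S.card = ∑ _x ∈ S, 3 by simp [mul_comm]]
    refine sum_congr rfl fun x hx => ?_
    rw [← hdeg x]
    refine card_bij' (fun p _ => p.2) (fun w _ => (x, w)) ?_ ?_ ?_ ?_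
    · intro p hp
      simp only [mem_filter, mem_univ, true_and] at hp ⊢
      exact hp.2 ▸ hp.1.2
    · intro w hw
      simp only [mem_filter, mem_univ, true_and] at hw ⊢
      exact ⟨⟨hx, hw⟩, trivial⟩
    · intro p hp
      simp only [mem_filter, mem_univ, true_and] at hp
      exact Prod.ext hp.2.symm rfl
    · intro w _
      rfl
  have hin : Even inP.card := even_card_of_involution inP Prod.swap (by
    intro p hp
    simp only [inP, mem_filter, mem_univ, true_and] at hp ⊢
    exact ⟨⟨hp.2.1, hp.1, hp.2.2.symm⟩, fun h => hp.2.2.ne (congrArg Prod.snd h), rfl⟩)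
  have hodd : Odd (outPairs G S).card := by
    have h3 : Odd (3 * S.card) := Odd.mul (by decide) hS
    rw [← hsum] at h3
    exact (Nat.odd_add'.1 h3).2 hin
  have hne1 : (outPairs G S).card ≠ 1 := by
    intro h1
    obtain ⟨⟨x, y⟩, hxy⟩ := card_eq_one.1 h1
    have hmem : x ∈ S ∧ y ∉ S ∧ G.Adj x y := by
      have : (x, y) ∈ outPairs G S := by rw [hxy]; exact mem_singleton_self _
      simpa [outPairs] using this
    apply hbr s(x, y) hmem.2.2
    rw [SimpleGraph.isBridge_iff]
    rintro ⟨p⟩
    have hclosed : ∀ a b, (G.deleteEdges {s(x, y)}).Adj a b → a ∈ S → b ∈ S := by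
      intro a b hab ha
      by_contra hb
      rw [SimpleGraph.deleteEdges_adj] at hab
      have : (a, b) ∈ outPairs G S := by simp [outPairs, ha, hb, hab.1]
      rw [hxy, mem_singleton, Prod.mk.injEq] at this
      exact hab.2 (by simp [this.1, this.2])
    have : ∀ {a b} (q : (G.deleteEdges {s(x, y)}).Walk a b), a ∈ S → b ∈ S := by
      intro a b q
      induction q with
      | nil => exact id
      | cons h _ ih => exact fun ha => ih (hclosed _ _ h ha)
    exact hmem.2.1 (this p hmem.1)
  obtain ⟨j, hj⟩ := hodd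
  omega

/-- **Petersen**: a cubic graph without bridges has a perfect matching. -/
theorem petersen_matching (G : SimpleGraph V) (hreg : ∀ v, (G.neighborSet v).ncard = 3)
    (hbr : ∀ e ∈ G.edgeSet, ¬ G.IsBridge e) : ∃ M : G.Subgraph, M.IsPerfectMatching := by
  rw [SimpleGraph.tutte]
  intro u hu
  let H := ((⊤ : G.Subgraph).deleteVerts u).coe
  let Odd' := {c : H.ConnectedComponent // Odd c.supp.ncard}
  let S : Odd' → Finset V := fun c => (Subtype.val '' c.1.supp).toFinset
  have hmemS : ∀ c v, v ∈ S c ↔ ∃ h, H.connectedComponentMk ⟨v, h⟩ = c.1 := by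
    intro c v
    simp only [S, Set.mem_toFinset, Set.mem_image]
    constructor
    · rintro ⟨⟨w, hw⟩, hc, rfl⟩
      exact ⟨hw, hc⟩
    · rintro ⟨h, hc⟩
      exact ⟨⟨v, h⟩, hc, rfl⟩
  have hSodd : ∀ c, Odd (S c).card := by
    intro c
    simp only [S, ← Set.ncard_eq_toFinset_card', Set.ncard_image_of_injective _ Subtype.val_injective]
    exact c.2
  have hout : ∀ c p, p ∈ outPairs G (S c) → p.2 ∈ u := by
    intro c p hp
    simp only [outPairs, mem_filter, mem_univ, true_and] at hp
    by_contra hu'
    obtain ⟨h1, hc⟩ := (hmemS c p.1).1 hp.1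
    apply hp.2.1
    have h2 : p.2 ∈ ((⊤ : G.Subgraph).deleteVerts u).verts := by simp [hu']
    refine (hmemS c p.2).2 ⟨h2, ?_⟩
    rw [← hc]
    refine SimpleGraph.ConnectedComponent.sound (SimpleGraph.Adj.reachable ?_)
    change ((⊤ : G.Subgraph).deleteVerts u).Adj p.2 p.1
    have hu1 : p.1 ∉ u := by simpa using h1
    simp [hu1, hu', hp.2.2.symm]
  have hle : (univ.biUnion fun c => outPairs G (S c)).card ≤ 3 * u.ncard := by
    let T : Finset (V × V) := univ.filter fun p => p.2 ∈ u ∧ G.Adj p.1 p.2
    calc (univ.biUnion fun c => outPairs G (S c)).card ≤ T.card := by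
          refine card_le_card fun p hp => ?_
          obtain ⟨c, -, hc⟩ := mem_biUnion.1 hp
          refine mem_filter.2 ⟨mem_univ _, hout c p hc, ?_⟩
          simp only [outPairs, mem_filter] at hc
          exact hc.2.2.2
      _ = ∑ y ∈ u.toFinset, (T.filter fun p => p.2 = y).card :=
          card_eq_sum_card_fiberwise fun p hp => by simpa [T] using (mem_filter.1 hp).2.1
      _ ≤ ∑ _y ∈ u.toFinset, 3 := by
          refine sum_le_sum fun y _ => ?_
          rw [← hreg y, Set.ncard_eq_toFinset_card']
          refine card_le_card_of_injOn Prod.fst (fun p hp => ?_) fun p hp q hq h => ?_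
          · simp only [T, coe_filter, Set.mem_ofPred_eq, mem_filter, mem_univ, true_and] at hp
            simpa using hp.2 ▸ hp.1.2.symm
          · simp only [T, coe_filter, Set.mem_ofPred_eq, mem_filter] at hp hq
            exact Prod.ext h (hp.2.trans hq.2.symm)
      _ = 3 * u.ncard := by
          rw [sum_const, smul_eq_mul, ← Set.ncard_eq_toFinset_card', mul_comm]
  have hdisj : ((univ : Finset Odd') : Set Odd').PairwiseDisjoint fun c => outPairs G (S c) := by
    intro c _ d _ hcd
    rw [Function.onFun, disjoint_left]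
    intro p hp hq
    simp only [outPairs, mem_filter, mem_univ, true_and] at hp hq
    obtain ⟨_, h1⟩ := (hmemS c p.1).1 hp.1
    obtain ⟨_, h2⟩ := (hmemS d p.1).1 hq.1
    exact hcd (Subtype.ext (h1.symm.trans h2))
  rw [card_biUnion hdisj] at hle
  have hge : 3 * Fintype.card Odd' ≤ 3 * u.ncard := by
    refine le_trans ?_ hle
    calc 3 * Fintype.card Odd' = ∑ _c : Odd', 3 := by simp [mul_comm]
      _ ≤ _ := sum_le_sum fun c _ => three_le_outPairs G hreg hbr (hSodd c)
  have hcount : H.oddComponents.ncard = Fintype.card Odd' := by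
    rw [← Nat.card_coe_set_eq, Nat.card_eq_fintype_card]
    exact Fintype.card_congr (Equiv.refl _)
  unfold SimpleGraph.IsTutteViolator at hu
  change u.ncard < H.oddComponents.ncard at hu
  omega

/-- **Petersen's decomposition**: such a graph splits into a perfect matching and a two-regular
spanning subgraph. -/
theorem petersen_two_factor (G : SimpleGraph V) (hreg : ∀ v, (G.neighborSet v).ncard = 3)
    (hbr : ∀ e ∈ G.edgeSet, ¬ G.IsBridge e) :
    ∃ M : G.Subgraph, M.IsPerfectMatching ∧
      ∀ v, ((G.deleteEdges M.edgeSet).neighborSet v).ncard = 2 := by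
  obtain ⟨M, hM⟩ := petersen_matching G hreg hbr
  refine ⟨M, hM, fun v => ?_⟩
  obtain ⟨w, hw, huniq⟩ := SimpleGraph.Subgraph.isPerfectMatching_iff.1 hM v
  have h : (G.deleteEdges M.edgeSet).neighborSet v = G.neighborSet v \ {w} := by
    ext x
    simp only [SimpleGraph.mem_neighborSet, SimpleGraph.deleteEdges_adj, Set.mem_sdiff,
      Set.mem_singleton_iff, SimpleGraph.Subgraph.mem_edgeSet]
    constructor
    · rintro ⟨h1, h2⟩
      exact ⟨h1, fun hx => h2 (hx ▸ hw)⟩
    · rintro ⟨h1, h2⟩
      exact ⟨h1, fun hx => h2 (huniq x hx)⟩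
  rw [h, Set.ncard_sdiff_singleton_of_mem (show w ∈ G.neighborSet v from M.adj_sub hw), hreg]

end FA.Pfaff
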